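import Mathlib
import Fermat.Prelude.Def_ModularCurve_LaurentCoeff

/-!
# Row 497 (KL-M-QEXP), model side, part 1 (helper66): coefficientwise base change of Laurent
series preserves linear independence

For a homomorphism of fields `f : k →+* k'` the coefficientwise map
`coeffMap f : k((q)) →+* k'((q))` sends `k`-linearly independent families to `k'`-linearly
independent families (`k' ⊗_k k((q)) → k'((q))` is injective).  All statements are given in an
instance-free form (constants act through `HahnSeries.C`).

* `bci_sum_C_mul` : the family form.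
* `bci_poly` : the polynomial form: if `b_1, …, b_n ∈ k((q))` are independent over `k[x]`, then
  their images are independent over `k'[x']`, `x' = coeffMap f x`.
-/

set_option autoImplicit false

noncomputable section

namespace Fermat.Agent.H66.KLM

open ModularCurve Polynomial

section Family

variable {k k' : Type*} [Field k] [Field k'] (f : k →+* k')

theorem bci_coeff_C_mul {R : Type*} [CommRing R] (c : R) (y : LaurentSeries R) (m : ℤ) :
    (HahnSeries.C c * y).coeff m = c * y.coeff m := by
  rw [HahnSeries.C_mul_eq_smul, HahnSeries.coeff_smul, smul_eq_mul]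

theorem bci_coeff_sum {R : Type*} [CommRing R] {ι : Type*} (s : Finset ι)
    (y : ι → LaurentSeries R) (m : ℤ) :
    (∑ a ∈ s, y a).coeff m = ∑ a ∈ s, (y a).coeff m := by
  classical
  induction s using Finset.induction_on with
  | empty => simp
  | insert a s ha ih => rw [Finset.sum_insert ha, Finset.sum_insert ha, HahnSeries.coeff_add, ih]

/-- **Coefficientwise base change preserves linear independence** (family form). -/
theorem bci_sum_C_mul {ι : Type*} (y : ι → LaurentSeries k)
    (hy : ∀ (s : Finset ι) (c : ι → k),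
      ∑ a ∈ s, HahnSeries.C (c a) * y a = 0 → ∀ a ∈ s, c a = 0)
    (s : Finset ι) (c : ι → k')
    (h : ∑ a ∈ s, HahnSeries.C (c a) * coeffMap f (y a) = 0) : ∀ a ∈ s, c a = 0 := by
  classical
  let _ : Algebra k k' := f.toAlgebra
  have hsmul : ∀ (t : k) (z : k'), t • z = f t * z := fun t z => rfl
  -- every `k`-linear functional kills the coefficients
  have key : ∀ φ : Module.Dual k k', ∀ a ∈ s, φ (c a) = 0 := by
    intro φ
    apply hy s (fun a => φ (c a))
    ext m
    rw [bci_coeff_sum, HahnSeries.coeff_zero]
    have hm := congrArg (fun z : LaurentSeries k' => z.coeff m) h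
    simp only [bci_coeff_sum, HahnSeries.coeff_zero] at hm
    have h2 := congrArg φ hm
    rw [map_sum, map_zero] at h2
    rw [← h2]
    refine Finset.sum_congr rfl fun a _ => ?_
    rw [bci_coeff_C_mul, bci_coeff_C_mul, coeffMap_coeff, mul_comm (c a), ← hsmul, map_smul,
      smul_eq_mul, mul_comm]
  intro a ha
  exact (Module.forall_dual_apply_eq_zero_iff k (c a)).mp fun φ => key φ a ha

end Family

section Poly

variable {k k' : Type*} [Field k] [Field k'] (f : k →+* k')

theorem bci_eval₂_mul {R : Type*} [CommRing R] (x b : LaurentSeries R) (p : R[X]) (D : ℕ)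
    (hD : p.natDegree < D) :
    p.eval₂ HahnSeries.C x * b = ∑ d ∈ Finset.range D, HahnSeries.C (p.coeff d) * (x ^ d * b) := by
  rw [Polynomial.eval₂_eq_sum_range' _ hD, Finset.sum_mul]
  exact Finset.sum_congr rfl fun d _ => mul_assoc _ _ _

/-- independence over `k[x]` (polynomial form) gives independence of the products `x ^ d * b i`
over `k` -/
theorem bci_family_of_poly (x : LaurentSeries k) {n : ℕ} (b : Fin n → LaurentSeries k)
    (h : ∀ p : Fin n → k[X], ∑ i, (p i).eval₂ HahnSeries.C x * b i = 0 → ∀ i, p i = 0)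
    (s : Finset (ℕ × Fin n)) (c : ℕ × Fin n → k)
    (hc : ∑ a ∈ s, HahnSeries.C (c a) * (x ^ a.1 * b a.2) = 0) : ∀ a ∈ s, c a = 0 := by
  classical
  set p : Fin n → k[X] := fun i => ∑ a ∈ s, if a.2 = i then monomial a.1 (c a) else 0 with hp
  have hpe : ∀ i, (p i).eval₂ HahnSeries.C x * b i =
      ∑ a ∈ s, if a.2 = i then HahnSeries.C (c a) * (x ^ a.1 * b a.2) else 0 := by
    intro i
    rw [hp]
    simp only
    rw [Polynomial.eval₂_finsetSum, Finset.sum_mul]
    refine Finset.sum_congr rfl fun a _ => ?_
    split_ifs with hai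
    · rw [Polynomial.eval₂_monomial, hai, mul_assoc]
    · rw [Polynomial.eval₂_zero, zero_mul]
  have hsum : ∑ i, (p i).eval₂ HahnSeries.C x * b i = 0 := by
    simp only [hpe]
    rw [Finset.sum_comm]
    refine Eq.trans ?_ hc
    refine Finset.sum_congr rfl fun a _ => ?_
    rw [Finset.sum_ite_eq]
    simp
  have hp0 := h p hsum
  intro a ha
  have h1 := congrArg (fun q : k[X] => q.coeff a.1) (hp0 a.2)
  simp only [hp, Polynomial.coeff_zero, Polynomial.finsetSum_coeff] at h1
  rw [Finset.sum_eq_single a] at h1
  · simpa using h1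
  · intro a' _ hne
    split_ifs with h2
    · rw [Polynomial.coeff_monomial, if_neg]
      intro h3
      exact hne (Prod.ext h3 h2)
    · exact Polynomial.coeff_zero _
  · intro h2; exact absurd ha h2

/-- independence of the products `x ^ d * b i` over `k` gives independence of the `b i` over
`k[x]` (polynomial form) -/
theorem bci_poly_of_family (x : LaurentSeries k) {n : ℕ} (b : Fin n → LaurentSeries k)
    (h : ∀ (s : Finset (ℕ × Fin n)) (c : ℕ × Fin n → k),
      ∑ a ∈ s, HahnSeries.C (c a) * (x ^ a.1 * b a.2) = 0 → ∀ a ∈ s, c a = 0)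
    (p : Fin n → k[X]) (hp : ∑ i, (p i).eval₂ HahnSeries.C x * b i = 0) : ∀ i, p i = 0 := by
  classical
  obtain ⟨D, hD⟩ : ∃ D : ℕ, ∀ i, (p i).natDegree < D := by
    refine ⟨(Finset.univ.sup fun i => (p i).natDegree) + 1, fun i => ?_⟩
    exact Nat.lt_succ_of_le (Finset.le_sup (f := fun i => (p i).natDegree) (Finset.mem_univ i))
  have h0 := h (Finset.range D ×ˢ Finset.univ) (fun a => (p a.2).coeff a.1) (by
    rw [Finset.sum_product_right]
    rw [← hp]
    refine Finset.sum_congr rfl fun i _ => ?_
    rw [bci_eval₂_mul x (b i) (p i) D (hD i)])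
  intro i
  ext d
  rw [Polynomial.coeff_zero]
  by_cases hd : d < D
  · exact h0 (d, i) (Finset.mem_product.mpr ⟨Finset.mem_range.mpr hd, Finset.mem_univ i⟩)
  · exact Polynomial.coeff_eq_zero_of_natDegree_lt (lt_of_lt_of_le (hD i) (not_lt.mp hd))

/-- **Base change of independence over the polynomial ring**: if `b_1, …, b_n ∈ k((q))` are
independent over `k[x]`, their coefficientwise images are independent over `k'[x']`. -/
theorem bci_poly (x : LaurentSeries k) {n : ℕ} (b : Fin n → LaurentSeries k)
    (h : ∀ p : Fin n → k[X], ∑ i, (p i).eval₂ HahnSeries.C x * b i = 0 → ∀ i, p i = 0)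
    (p : Fin n → k'[X])
    (hp : ∑ i, (p i).eval₂ HahnSeries.C (coeffMap f x) * coeffMap f (b i) = 0) :
    ∀ i, p i = 0 := by
  refine bci_poly_of_family (coeffMap f x) (fun i => coeffMap f (b i)) ?_ p hp
  intro s c hc
  refine bci_sum_C_mul f (fun a : ℕ × Fin n => x ^ a.1 * b a.2)
    (bci_family_of_poly x b h) s c ?_
  rw [← hc]
  refine Finset.sum_congr rfl fun a _ => ?_
  rw [map_mul, map_pow]

end Poly

end Fermat.Agent.H66.KLM
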