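import Mathlib
import Fermat.Agent.H27.KLGB.Model
import Fermat.Agent.H48.KL.QExpModelDefs
import Fermat.Agent.H66.KLM.BaseChangeIndep

/-!
# Row 497 (KL-M-QEXP), model side, part 2 (helper66): the strong good basis

`modelStrongBasis : Fermat.Agent.H48.QExp.ModelStrongBasisStatement N ℓ` for every prime
`ℓ ∤ N`: for the pair `(θ, P)` of `H27.KLGB.goodPrimitive_j_full` and `n = ψ(N)`

* (SPAN) over every field `K₁` of characteristic zero the powers `1, θ, …, θ^(n-1)` span
  `K₁(j(q^d) : d ∣ N)` over `K₁(j)` (from `GeneratesCharZero`, helper27);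
* (GI) over every field `k` of characteristic `ℓ` the powers `1, θ̄, …, θ̄^(n-1)` are independent
  over `k[j̄]` (from the minimal polynomial over `𝔽_ℓ(j̄)` and the coefficientwise base change
  `𝔽_ℓ → k`, module `BaseChangeIndep`).
-/

set_option autoImplicit false

noncomputable section

namespace Fermat.Agent.H66.KLM

open ModularCurve Polynomial IntermediateField Fermat.Agent.H27 Fermat.Agent.H27.KLGB

section Generic

variable {K E : Type*} [Field K] [Field E] [Algebra K E]

/-- the powers of `θ` below the degree of its minimal polynomial are linearly independent -/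
theorem sb_pow_indep (θ : E) (n : ℕ) (hn : (minpoly K θ).natDegree = n) (c : Fin n → K)
    (h : ∑ i, algebraMap K E (c i) * θ ^ (i : ℕ) = 0) : ∀ i, c i = 0 := by
  subst hn
  have hli := linearIndependent_pow (K := K) θ
  rw [Fintype.linearIndependent_iff] at hli
  apply hli
  rw [← h]
  exact Finset.sum_congr rfl fun i _ => Algebra.smul_def _ _

/-- every element of `K(θ)` is a combination of the powers of `θ` below the degree -/
theorem sb_pow_span (θ : E) (hint : IsIntegral K θ) (n : ℕ)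
    (hn : (minpoly K θ).natDegree = n) (y : E) (hy : y ∈ K⟮θ⟯) :
    ∃ c : Fin n → K, y = ∑ i, algebraMap K E (c i) * θ ^ (i : ℕ) := by
  have h1 : y ∈ Algebra.adjoin K ({θ} : Set E) := by
    rw [← IntermediateField.adjoin_simple_toSubalgebra_of_isAlgebraic hint.isAlgebraic]
    exact hy
  rw [Algebra.adjoin_singleton_eq_range_aeval] at h1
  obtain ⟨g, rfl⟩ := h1
  have hm : (minpoly K θ).Monic := minpoly.monic hint
  have hroot : Polynomial.aeval θ (g %ₘ minpoly K θ) = Polynomial.aeval θ g :=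
    Polynomial.aeval_modByMonic_eq_self_of_root (minpoly.aeval K θ)
  by_cases hn0 : n = 0
  · -- degree zero is impossible
    exfalso
    have := minpoly.natDegree_pos hint
    omega
  have hdeg : (g %ₘ minpoly K θ).natDegree < n := by
    rw [← hn]
    exact Polynomial.natDegree_modByMonic_lt g hm (minpoly.ne_one K θ)
  refine ⟨fun i => (g %ₘ minpoly K θ).coeff i, ?_⟩
  show Polynomial.aeval θ g = _
  rw [← hroot, Polynomial.aeval_eq_sum_range' hdeg,
    ← Fin.sum_univ_eq_sum_range (fun i => (g %ₘ minpoly K θ).coeff i • θ ^ i) n]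
  exact Finset.sum_congr rfl fun i _ => Algebra.smul_def _ _

end Generic

section Eval

variable (k : Type*) [Field k]

theorem sb_algebraMap_eq_C : algebraMap k (LaurentSeries k) = HahnSeries.C := by
  ext c : 1
  rw [algebraMap_laurentSeries_eq_single]
  rfl

theorem sb_aeval_eq_eval₂ (x : LaurentSeries k) (p : k[X]) :
    Polynomial.aeval x p = p.eval₂ HahnSeries.C x := by
  rw [Polynomial.aeval_def, sb_algebraMap_eq_C]

theorem sb_aeval_mem_kJ (p : k[X]) : Polynomial.aeval (jqModC k) p ∈ kJ k := by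
  have h : Polynomial.aeval (jqModC k) p ∈ Algebra.adjoin k ({jqModC k} : Set (LaurentSeries k)) := by
    rw [Algebra.adjoin_singleton_eq_range_aeval]
    exact ⟨p, rfl⟩
  exact IntermediateField.algebra_adjoin_le_adjoin k _ h

end Eval

/-- **(GI) over `𝔽_ℓ`**: independence of the powers of `θ̄` over `𝔽_ℓ[j̄]`, polynomial form. -/
theorem sb_gi_zmod (ℓ : ℕ) [Fact ℓ.Prime] (θb : LaurentSeries (ZMod ℓ)) (n : ℕ)
    (hn : (minpoly ↥(kJ (ZMod ℓ)) θb).natDegree = n) (p : Fin n → (ZMod ℓ)[X])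
    (hp : ∑ i, (p i).eval₂ HahnSeries.C (jqModC (ZMod ℓ)) * θb ^ (i : ℕ) = 0) :
    ∀ i, p i = 0 := by
  have h0 := sb_pow_indep (K := ↥(kJ (ZMod ℓ))) θb n hn
    (fun i => ⟨Polynomial.aeval (jqModC (ZMod ℓ)) (p i), sb_aeval_mem_kJ (ZMod ℓ) (p i)⟩) (by
      rw [← hp]
      refine Finset.sum_congr rfl fun i _ => ?_
      rw [← sb_aeval_eq_eval₂]
      rfl)
  intro i
  have h1 : Polynomial.aeval (jqModC (ZMod ℓ)) (p i) = 0 := congrArg Subtype.val (h0 i)
  exact (transcendental_iff.mp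
    (P2MW.S_ModularCurve_coeff_jqModC_neg_one.ModularCurve.CharLRows.transcendental_jqModC
      (ZMod ℓ))) _ h1

/-- **(GI) over every field of characteristic `ℓ`**. -/
theorem sb_gi (ℓ : ℕ) [Fact ℓ.Prime] (θ : LaurentSeries ℤ) (n : ℕ)
    (hn : (minpoly ↥(kJ (ZMod ℓ)) (coeffMap (Int.castRingHom (ZMod ℓ)) θ)).natDegree = n)
    (k : Type) [Field k] [CharP k ℓ] (p : Fin n → k[X])
    (hp : ∑ i, Polynomial.aeval (jqModC k) (p i) * (coeffMap (Int.castRingHom k) θ) ^ (i : ℕ)
      = 0) : ∀ i, p i = 0 := by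
  set f : ZMod ℓ →+* k := ZMod.castHom (dvd_refl ℓ) k with hf
  have hθ : coeffMap f (coeffMap (Int.castRingHom (ZMod ℓ)) θ) =
      coeffMap (Int.castRingHom k) θ := by
    rw [coeffMap_coeffMap]
    exact coeffMap_congr (RingHom.ext_int _ _) θ
  refine bci_poly f (jqModC (ZMod ℓ))
    (fun i : Fin n => (coeffMap (Int.castRingHom (ZMod ℓ)) θ) ^ (i : ℕ))
    (sb_gi_zmod ℓ _ n hn) p ?_
  rw [← hp]
  refine Finset.sum_congr rfl fun i _ => ?_
  rw [coeffMap_jqModC, map_pow, hθ, sb_aeval_eq_eval₂]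

/-- **The strong good basis of the model** (input of KL-M-QEXP, row 497). -/
theorem modelStrongBasis (N ℓ : ℕ) [NeZero N] (hl : ℓ.Prime) (hN : ¬ ℓ ∣ N) :
    Fermat.Agent.H48.QExp.ModelStrongBasisStatement N ℓ := by
  classical
  have : Fact ℓ.Prime := ⟨hl⟩
  obtain ⟨θ, P, hθ, hPm, hPnat, hPθ, -, -, hmin, hall⟩ := goodPrimitive_j_full N ℓ hN
  refine ⟨θ, P, dedekindPsi N, hθ, hPm, hPθ, ?_, ?_⟩
  · -- (SPAN)
    intro K₁ _ _ y hy
    have : CharZero K₁ := algebraRat.charZero K₁
    obtain ⟨-, hgen, hdeg⟩ := hall K₁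
    have hroot : Polynomial.aeval (coeffMap (Int.castRingHom K₁) θ) (P.map (phiK K₁)) = 0 := by
      rw [aeval_map_phiK]
      have := eval_map_coeffMap (Int.castRingHom K₁) P _ _ hPθ
      rwa [coeffMap_jqModC] at this
    have hint : IsIntegral ↥(kJ K₁) (coeffMap (Int.castRingHom K₁) θ) :=
      ⟨P.map (phiK K₁), hPm.map _, hroot⟩
    obtain ⟨c, hc⟩ := sb_pow_span (K := ↥(kJ K₁)) _ hint (dedekindPsi N) hdeg y
      (hgen y (laurentBaseChange_le_fullC K₁ N hy))
    exact ⟨fun i => (c i : LaurentSeries K₁), fun i => (c i).2, hc⟩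
  · -- (GI)
    intro k _ _ p hp
    exact sb_gi ℓ θ (dedekindPsi N) (by rw [hmin, hPm.natDegree_map, hPnat]) k p hp

end Fermat.Agent.H66.KLM
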